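/-
S25, block DEGREE (squad S25/S10), helper610: leaf D9 `exists_locallyConstant_degree` (exact
statement of `H10/DegreeSkel.lean`), leaf D2-b `unit_isBC`, and the adapter piece AD4.

* `isBaseChange_restrictScalars_of_isPushout` : cancellation of base change along a pushout
  square of rings;
* `exists_equiv_of_isSemilinearBaseChange` : a semilinear base change along `A ⊗ B → A' ⊗ B`
  identifies the target with `A' ⊗[A] -`;
* `exists_cech_square`, `nonempty_equiv_of_baseChangeMaps` (AD4): for a base change `G'` of `G`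
  along `φ : A → A'`, `Ȟ⁰(G')` and `Ȟ¹(G')` are the kernel and cokernel of `A' ⊗[A] cech G`;
* `unit_isBC` (D2-b);
* `exists_locallyConstant_euler` : fibrewise `χ` is locally constant on `Spec A` and the fibre
  cohomology is finite-dimensional;
* `exists_locallyConstant_degree` (D9).
-/
import Fermat.Agent.S25.DefsAlg
import Fermat.Agent.S25.H250.AdapterProj
import Fermat.Agent.S25.H850.EulerConst

set_option autoImplicit false
set_option linter.style.haveILetI false

universe u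

open scoped TensorProduct

namespace Fermat.Agent.S25.H610

open Fermat.Agent.S25

noncomputable section

/-- Cancellation of base change along a pushout square of rings: if `R' = A' ⊗[A] R` and
`f : N → N'` exhibits `N'` as `R' ⊗[R] N`, then `f` exhibits `N'` as `A' ⊗[A] N`. -/
theorem isBaseChange_restrictScalars_of_isPushout
    (A A' R R' : Type*) [CommRing A] [CommRing A'] [CommRing R] [CommRing R']
    [Algebra A A'] [Algebra A R] [Algebra A' R'] [Algebra R R'] [Algebra A R']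
    [IsScalarTower A A' R'] [IsScalarTower A R R'] [Algebra.IsPushout A A' R R']
    {N N' : Type*} [AddCommGroup N] [Module R N] [Module A N] [IsScalarTower A R N]
    [AddCommGroup N'] [Module R' N'] [Module R N'] [IsScalarTower R R' N']
    [Module A' N'] [IsScalarTower A' R' N'] [Module A N'] [IsScalarTower A A' N']
    [IsScalarTower A R N']
    (f : N →ₗ[R] N') (hf : IsBaseChange R' f) : IsBaseChange A' (f.restrictScalars A) := by
  let e1 : R' ⊗[R] N ≃ₗ[A'] A' ⊗[A] N := Algebra.IsPushout.cancelBaseChange A A' R R' N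
  let e2 : R' ⊗[R] N ≃ₗ[A'] N' := hf.equiv.restrictScalars A'
  refine IsBaseChange.of_equiv (e1.symm.trans e2) (fun n => ?_)
  simp [e1, e2, hf.equiv_tmul]

section Semilinear

variable {k : Type u} [Field k] {A A' : Type u} [CommRing A] [Algebra k A] [CommRing A']
  [Algebra k A'] (φ : A →ₐ[k] A') (B : Type u) [CommRing B] [Algebra k B]
  {N N' : Type u} [AddCommGroup N] [Module (A ⊗[k] B) N] [Module A N]
  [IsScalarTower A (A ⊗[k] B) N]
  [AddCommGroup N'] [Module (A' ⊗[k] B) N'] [Module A' N'] [IsScalarTower A' (A' ⊗[k] B) N']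

theorem tensorMapLeft_tmul (a : A) (b : B) :
    tensorMapLeft k φ B (a ⊗ₜ[k] b) = φ a ⊗ₜ[k] b := by
  simp [tensorMapLeft]

/-- A semilinear base change along `A ⊗ B → A' ⊗ B` is a base change along `A → A'`. -/
theorem exists_equiv_of_isSemilinearBaseChange
    (b : N →ₛₗ[tensorMapLeft k φ B] N') (hb : IsSemilinearBaseChange _ b) :
    letI : Algebra A A' := φ.toRingHom.toAlgebra
    ∃ e : A' ⊗[A] N ≃ₗ[A'] N', ∀ (a' : A') (n : N), e (a' ⊗ₜ[A] n) = a' • b n := by
  letI algAA' : Algebra A A' := φ.toRingHom.toAlgebra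
  haveI : IsScalarTower k A A' := IsScalarTower.of_algebraMap_eq (fun r => (φ.commutes r).symm)
  letI algRR' : Algebra (A ⊗[k] B) (A' ⊗[k] B) := (tensorMapLeft k φ B).toAlgebra
  have hρ : ∀ r : A ⊗[k] B, algebraMap (A ⊗[k] B) (A' ⊗[k] B) r = tensorMapLeft k φ B r :=
    fun _ => rfl
  have hφ : ∀ a : A, algebraMap A A' a = φ a := fun _ => rfl
  haveI : IsScalarTower A (A ⊗[k] B) (A' ⊗[k] B) := IsScalarTower.of_algebraMap_eq (fun a => by
    rw [hρ, Algebra.TensorProduct.algebraMap_apply, Algebra.TensorProduct.algebraMap_apply,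
      tensorMapLeft_tmul]
    rfl)
  haveI : Algebra.IsPushout A A' (A ⊗[k] B) (A' ⊗[k] B) :=
    Algebra.IsPushout.tensorProduct_tensorProduct k B A A' (by
      ext s
      simp [hρ, tensorMapLeft_tmul])
  letI : Module (A ⊗[k] B) N' := Module.compHom N' (tensorMapLeft k φ B)
  haveI : IsScalarTower (A ⊗[k] B) (A' ⊗[k] B) N' := ⟨fun r r' n => by
    change (tensorMapLeft k φ B r * r') • n = tensorMapLeft k φ B r • (r' • n); rw [mul_smul]⟩
  letI : Module A N' := Module.compHom N' φ.toRingHom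
  have hA : ∀ (a : A) (n : N'), a • n = φ a • n := fun _ _ => rfl
  have hR : ∀ (r : A ⊗[k] B) (n : N'), r • n = tensorMapLeft k φ B r • n := fun _ _ => rfl
  haveI : IsScalarTower A A' N' := ⟨fun a a' n => by
    rw [hA, Algebra.smul_def, hφ, mul_smul]⟩
  haveI : IsScalarTower A (A ⊗[k] B) N' := ⟨fun a r n => by
    rw [hA, hR, hR, Algebra.smul_def, map_mul, Algebra.TensorProduct.algebraMap_apply,
      tensorMapLeft_tmul, mul_smul, ← algebraMap_smul (A' ⊗[k] B) (φ a),
      Algebra.TensorProduct.algebraMap_apply]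
    rfl⟩
  let f₀ : N →ₗ[A ⊗[k] B] N' :=
    { toFun := fun n => b n
      map_add' := fun m n => b.map_add m n
      map_smul' := fun r n => LinearMap.map_smulₛₗ b r n }
  have hb' : IsBaseChange (A' ⊗[k] B) f₀ := hb
  have h := isBaseChange_restrictScalars_of_isPushout A A' (A ⊗[k] B) (A' ⊗[k] B) f₀ hb'
  exact ⟨h.equiv, fun a' n => by rw [h.equiv_tmul]; rfl⟩

end Semilinear

section Transport

variable {R : Type*} [CommRing R] {M N M' N' : Type*} [AddCommGroup M] [AddCommGroup N]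
  [AddCommGroup M'] [AddCommGroup N'] [Module R M] [Module R N] [Module R M'] [Module R N']

/-- Kernels of maps that correspond under isomorphisms are isomorphic. -/
def kerEquivOfSquare (f : M →ₗ[R] N) (f' : M' →ₗ[R] N') (α : M ≃ₗ[R] M')
    (β : N ≃ₗ[R] N') (h : ∀ x, β (f x) = f' (α x)) :
    LinearMap.ker f ≃ₗ[R] LinearMap.ker f' :=
  LinearEquiv.ofSubmodules α _ _ (by
    ext y
    simp only [Submodule.mem_map, LinearMap.mem_ker]
    constructor
    · rintro ⟨x, hx, rfl⟩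
      rw [LinearEquiv.coe_coe, ← h, hx, map_zero]
    · intro hy
      refine ⟨α.symm y, ?_, by simp⟩
      apply β.injective
      rw [h, map_zero]
      simpa using hy)

/-- Cokernels of maps that correspond under isomorphisms are isomorphic. -/
def cokerEquivOfSquare (f : M →ₗ[R] N) (f' : M' →ₗ[R] N') (α : M ≃ₗ[R] M')
    (β : N ≃ₗ[R] N') (h : ∀ x, β (f x) = f' (α x)) :
    (N ⧸ LinearMap.range f) ≃ₗ[R] (N' ⧸ LinearMap.range f') :=
  Submodule.Quotient.equiv _ _ β (by
    ext y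
    simp only [Submodule.mem_map, LinearMap.mem_range]
    constructor
    · rintro ⟨_, ⟨x, rfl⟩, rfl⟩
      exact ⟨α x, (h x).symm⟩
    · rintro ⟨x', rfl⟩
      refine ⟨f (α.symm x'), ⟨_, rfl⟩, ?_⟩
      rw [LinearEquiv.coe_coe, h]
      simp)

end Transport

section Compare

variable {k : Type u} [Field k] {B₀ B₁ B₀₁ : Type u} [CommRing B₀] [CommRing B₁] [CommRing B₀₁]
  [Algebra k B₀] [Algebra k B₁] [Algebra k B₀₁] [Algebra B₀ B₀₁] [Algebra B₁ B₀₁]
  [IsScalarTower k B₀ B₀₁] [IsScalarTower k B₁ B₀₁]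
  {A A' : Type u} [CommRing A] [Algebra k A] [CommRing A'] [Algebra k A']

/-- **AD4 (square form).** If `G'` is a base change of `G` along `φ : A → A'`, the Čech
differential of `G'` is the base change `A' ⊗[A] -` of the Čech differential of `G`. -/
theorem exists_cech_square (φ : A →ₐ[k] A') {G : CurveGD k B₀ B₁ B₀₁ A}
    {G' : CurveGD k B₀ B₁ B₀₁ A'}
    (bc : GlueDatum.BaseChangeMaps (tensorMapLeft k φ B₀) (tensorMapLeft k φ B₁)
      (tensorMapLeft k φ B₀₁) G G') :
    letI : Algebra A A' := φ.toRingHom.toAlgebra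
    ∃ (E : A' ⊗[A] (G.N₀ × G.N₁) ≃ₗ[A'] (G'.N₀ × G'.N₁))
      (e : A' ⊗[A] G.N₀₁ ≃ₗ[A'] G'.N₀₁),
      (∀ (a' : A') (p : G.N₀ × G.N₁), E (a' ⊗ₜ[A] p) = a' • (bc.b₀ p.1, bc.b₁ p.2)) ∧
      (∀ (a' : A') (n : G.N₀₁), e (a' ⊗ₜ[A] n) = a' • bc.b₀₁ n) ∧
      ∀ t, e (G.cech.baseChange A' t) = G'.cech (E t) := by
  letI algAA' : Algebra A A' := φ.toRingHom.toAlgebra
  obtain ⟨e₀, he₀⟩ := exists_equiv_of_isSemilinearBaseChange φ B₀ bc.b₀ bc.isBaseChange₀
  obtain ⟨e₁, he₁⟩ := exists_equiv_of_isSemilinearBaseChange φ B₁ bc.b₁ bc.isBaseChange₁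
  obtain ⟨e₀₁, he₀₁⟩ := exists_equiv_of_isSemilinearBaseChange φ B₀₁ bc.b₀₁ bc.isBaseChange₀₁
  refine ⟨(TensorProduct.prodRight A A' A' G.N₀ G.N₁).trans (e₀.prodCongr e₁), e₀₁, ?_, he₀₁, ?_⟩
  · intro a' p
    simp [he₀, he₁]
  · intro t
    induction t using TensorProduct.induction_on with
    | zero => rw [map_zero, map_zero, map_zero, map_zero]
    | add s t hs ht => rw [map_add, map_add, hs, ht, map_add, map_add]
    | tmul a' p =>
      obtain ⟨n₀, n₁⟩ := p
      simp only [LinearMap.baseChange_tmul, he₀₁, LinearEquiv.trans_apply,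
        TensorProduct.prodRight_tmul, LinearEquiv.prodCongr_apply, he₀, he₁]
      simp only [GlueDatum.cech, LinearMap.coprod_apply, LinearMap.coe_restrictScalars,
        LinearMap.neg_apply, map_add, map_neg, bc.comm₀, bc.comm₁, smul_add, smul_neg]
      rw [LinearMap.map_smul_of_tower, LinearMap.map_smul_of_tower]


/-- **AD4.** If `G'` is a base change of `G` along `φ : A → A'`, then `Ȟ⁰(G')` and `Ȟ¹(G')` are
the kernel and the cokernel of the base change of the Čech differential of `G`. -/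
theorem nonempty_equiv_of_baseChangeMaps (φ : A →ₐ[k] A') {G : CurveGD k B₀ B₁ B₀₁ A}
    {G' : CurveGD k B₀ B₁ B₀₁ A'}
    (bc : GlueDatum.BaseChangeMaps (tensorMapLeft k φ B₀) (tensorMapLeft k φ B₁)
      (tensorMapLeft k φ B₀₁) G G') :
    letI : Algebra A A' := φ.toRingHom.toAlgebra
    Nonempty (LinearMap.ker (G.cech.baseChange A') ≃ₗ[A'] G'.H0) ∧
      Nonempty (((A' ⊗[A] G.N₀₁) ⧸ LinearMap.range (G.cech.baseChange A')) ≃ₗ[A'] G'.H1) := by
  letI algAA' : Algebra A A' := φ.toRingHom.toAlgebra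
  obtain ⟨E, e, -, -, h⟩ := exists_cech_square φ bc
  exact ⟨⟨kerEquivOfSquare (R := A') (M := A' ⊗[A] (G.N₀ × G.N₁)) (N := A' ⊗[A] G.N₀₁)
      (M' := G'.N₀ × G'.N₁) (N' := G'.N₀₁) (G.cech.baseChange A') G'.cech E e h⟩,
    ⟨cokerEquivOfSquare (R := A') (M := A' ⊗[A] (G.N₀ × G.N₁)) (N := A' ⊗[A] G.N₀₁)
      (M' := G'.N₀ × G'.N₁) (N' := G'.N₀₁) (G.cech.baseChange A') G'.cech E e h⟩⟩

theorem tensorMapLeft_algebraMap (φ : A →ₐ[k] A') (B B' : Type u) [CommRing B] [CommRing B']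
    [Algebra k B] [Algebra k B'] [Algebra B B'] [IsScalarTower k B B'] (s : A ⊗[k] B) :
    tensorMapLeft k φ B' (algebraMap (A ⊗[k] B) (A ⊗[k] B') s) =
      algebraMap (A' ⊗[k] B) (A' ⊗[k] B') (tensorMapLeft k φ B s) := by
  induction s using TensorProduct.induction_on with
  | zero => simp
  | tmul a b =>
    rw [Fermat.Agent.S25.H250.algebraMap_tensor_tmul, tensorMapLeft_tmul, tensorMapLeft_tmul,
      Fermat.Agent.S25.H250.algebraMap_tensor_tmul]
  | add s t hs ht => rw [map_add, map_add, hs, ht, map_add, map_add]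

/-- A ring homomorphism, as a semilinear map, is a semilinear base change of the ring. -/
theorem isSemilinearBaseChange_ringHom {R R' : Type u} [CommRing R] [CommRing R']
    (ρ : R →+* R') : IsSemilinearBaseChange ρ ρ.toSemilinearMap := by
  letI : Algebra R R' := ρ.toAlgebra
  exact IsBaseChange.linearMap R R'

end Compare

section Degree

open Fermat.Agent.S25.H250 Fermat.Agent.S25.H10

variable {k : Type u} [Field k] {B₀ B₁ B₀₁ : Type u} [CommRing B₀] [CommRing B₁] [CommRing B₀₁]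
  [Algebra k B₀] [Algebra k B₁] [Algebra k B₀₁] [Algebra B₀ B₀₁] [Algebra B₁ B₀₁]
  [IsScalarTower k B₀ B₀₁] [IsScalarTower k B₁ B₀₁]
  {x : B₀} {y : B₁} {e : B₁ →ₐ[k] k}

/-- D2-b. The unit datum over `A'` is a base change of the unit datum over `A`. -/
theorem unit_isBC {A A' : Type u} [CommRing A] [Algebra k A] [CommRing A'] [Algebra k A']
    (φ : A →ₐ[k] A') :
    CurveGD.IsBC (B₀ := B₀) (B₁ := B₁) (B₀₁ := B₀₁) φ
      (GlueDatum.unit A (A ⊗[k] B₀) (A ⊗[k] B₁) (A ⊗[k] B₀₁))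
      (GlueDatum.unit A' (A' ⊗[k] B₀) (A' ⊗[k] B₁) (A' ⊗[k] B₀₁)) :=
  ⟨{ b₀ := (tensorMapLeft k φ B₀).toSemilinearMap
     b₁ := (tensorMapLeft k φ B₁).toSemilinearMap
     b₀₁ := (tensorMapLeft k φ B₀₁).toSemilinearMap
     comm₀ := fun s => tensorMapLeft_algebraMap φ B₀ B₀₁ s
     comm₁ := fun s => tensorMapLeft_algebraMap φ B₁ B₀₁ s
     isBaseChange₀ := isSemilinearBaseChange_ringHom _
     isBaseChange₁ := isSemilinearBaseChange_ringHom _
     isBaseChange₀₁ := isSemilinearBaseChange_ringHom _ }⟩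

/-- The fibrewise Euler characteristic of a gluing datum on `C_A` is a locally constant function
on `Spec A`, and `Ȟ⁰`, `Ȟ¹` of every fibre are finite-dimensional. -/
theorem exists_locallyConstant_euler (hC : IsCurveChart k B₀ B₁ B₀₁ x y e) {A : Type u}
    [CommRing A] [Algebra k A] (G : CurveGD k B₀ B₁ B₀₁ A) :
    ∃ χ : PrimeSpectrum A → ℤ, IsLocallyConstant χ ∧
      ∀ (K : Type u) [Field K] [Algebra k K] (φ : A →ₐ[k] K) (G' : CurveGD k B₀ B₁ B₀₁ K),
        CurveGD.IsBC φ G G' →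
          Module.Finite K G'.H0 ∧ Module.Finite K G'.H1 ∧
            G'.euler = χ ⟨RingHom.ker φ.toRingHom, RingHom.ker_isPrime _⟩ := by
  obtain ⟨f, hf, hf'⟩ := Fermat.Agent.S25.H850.exists_isLocallyConstant_euler.{u, u, u}
    (chartCechOps hC G) (isFGProj_X0 hC G) (isFGProj_Y1 hC G) (r0_injective hC G)
    (r1_injective hC G)
  refine ⟨f, hf, ?_⟩
  intro K _ _ φ G' hBC
  letI algAK : Algebra A K := φ.toRingHom.toAlgebra
  obtain ⟨bc⟩ := hBC
  obtain ⟨⟨e1⟩, ⟨e2⟩⟩ := nonempty_equiv_of_baseChangeMaps φ bc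
  obtain ⟨h1, h2, h3⟩ := hf' K
  rw [chartCechOps_d_zero] at h1 h2 h3
  refine ⟨Module.Finite.equiv e1, Module.Finite.equiv e2, ?_⟩
  rw [GlueDatum.euler, ← e1.finrank_eq, ← e2.finrank_eq]
  exact h3

/-- **D9.** The fibrewise degree is a locally constant function on `Spec A`. -/
theorem exists_locallyConstant_degree (hC : IsCurveChart k B₀ B₁ B₀₁ x y e) {A : Type u}
    [CommRing A] [Algebra k A] (G : CurveGD k B₀ B₁ B₀₁ A) :
    ∃ δ : PrimeSpectrum A → ℤ, IsLocallyConstant δ ∧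
      ∀ (K : Type u) [Field K] [Algebra k K] (φ : A →ₐ[k] K) (G' : CurveGD k B₀ B₁ B₀₁ K),
        CurveGD.IsBC φ G G' →
          G'.degree = δ ⟨RingHom.ker φ.toRingHom, RingHom.ker_isPrime _⟩ := by
  obtain ⟨f, hf, hf'⟩ := exists_locallyConstant_euler hC G
  obtain ⟨g, hg, hg'⟩ := exists_locallyConstant_euler hC
    (GlueDatum.unit A (A ⊗[k] B₀) (A ⊗[k] B₁) (A ⊗[k] B₀₁))
  refine ⟨fun p => f p - g p, hf.sub hg, ?_⟩
  intro K _ _ φ G' hBC
  rw [GlueDatum.degree, (hf' K φ G' hBC).2.2, (hg' K φ _ (unit_isBC φ)).2.2]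

end Degree

end

end Fermat.Agent.S25.H610
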