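/-
S25, block ALGCHARTS (squad S25/S10), helper610: shared sub-lemma SH3 = base change of the
twisted Čech differential `tcech x n` and of its kernel `sec x n` (`H11/ACDefs.lean`).

For `bc : GlueDatum.BaseChangeMaps (tensorMapLeft k ψ B₀) (tensorMapLeft k ψ B₁)
(tensorMapLeft k ψ B₀₁) G G'` (i.e. a witness of `CurveGD.IsBC ψ G G'`), `ψ : A →ₐ[k] A'`:

* `kerBaseChangeMap`, `kerBaseChangeMap_bijective`, `kerBaseChangeEquiv` (general): kernels of
  split surjections commute with base change;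
* `tcech_baseChangeMaps` : `b₀₁ (tcech x n G p) = tcech x n G' (b₀ p.1, b₁ p.2)`;
* `mem_sec_of_baseChangeMaps` (SH3 a);
* `exists_tcech_square` : `A' ⊗[A] tcech x n G ≅ tcech x n G'`, same identifications for all `n`;
* `P0_of_baseChangeMaps`, `P0_of_isBC` (SH3 b);
* `sec_finite_projective` (SH3 c): under `P0`, `tcech` is split onto, `sec` is f.g. projective;
* `exists_sec_baseChange_equiv` (SH3 d): under `P0`, `A' ⊗[A] sec G ≃ sec G'`,
  `a' ⊗ s ↦ a' • (b₀ s.1, b₁ s.2)`;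
* `sec_eq_span_of_baseChangeMaps` (SH3 e), `rankAtStalk_sec_of_baseChangeMaps` (SH3 f).
-/
import Fermat.Agent.S25.H11.ACDefs
import Fermat.Agent.S25.H190.ACDeg3
import Fermat.Agent.S25.H370.CechK6Full
import Fermat.Agent.S25.H610.DegreeConst

set_option autoImplicit false
set_option linter.style.haveILetI false
set_option linter.unusedSectionVars false

universe u

open scoped TensorProduct

namespace Fermat.Agent.S25.H610

open Fermat.Agent.S25 Fermat.Agent.S25.H11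

noncomputable section

/-! ### Kernels of split surjections commute with base change -/

section KerSplit

variable {A : Type*} [CommRing A] {M N : Type*} [AddCommGroup M] [AddCommGroup N]
  [Module A M] [Module A N] (A' : Type*) [CommRing A'] [Algebra A A']

/-- The natural map `A' ⊗ ker f → ker (A' ⊗ f)`. -/
def kerBaseChangeMap (f : M →ₗ[A] N) :
    A' ⊗[A] (LinearMap.ker f) →ₗ[A'] LinearMap.ker (f.baseChange A') :=
  LinearMap.codRestrict _ ((LinearMap.ker f).subtype.baseChange A') (fun t => by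
    rw [LinearMap.mem_ker, ← LinearMap.comp_apply, ← LinearMap.baseChange_comp]
    have : f ∘ₗ (LinearMap.ker f).subtype = 0 := by
      ext m; exact m.2
    rw [this, LinearMap.baseChange_zero, LinearMap.zero_apply])

@[simp] theorem kerBaseChangeMap_coe (f : M →ₗ[A] N) (t : A' ⊗[A] (LinearMap.ker f)) :
    (kerBaseChangeMap A' f t : A' ⊗[A] M) = (LinearMap.ker f).subtype.baseChange A' t := rfl

theorem kerBaseChangeMap_tmul (f : M →ₗ[A] N) (a' : A') (m : LinearMap.ker f) :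
    (kerBaseChangeMap A' f (a' ⊗ₜ[A] m) : A' ⊗[A] M) = a' ⊗ₜ[A] (m : M) := rfl

/-- For a split surjection `f`, the natural map `A' ⊗ ker f → ker (A' ⊗ f)` is bijective. -/
theorem kerBaseChangeMap_bijective (f : M →ₗ[A] N) (s : N →ₗ[A] M)
    (hs : f ∘ₗ s = LinearMap.id) : Function.Bijective (kerBaseChangeMap A' f) := by
  -- the projection onto the kernel
  let π₀ : M →ₗ[A] LinearMap.ker f :=
    LinearMap.codRestrict _ (LinearMap.id - s ∘ₗ f) (fun m => by
      rw [LinearMap.mem_ker, LinearMap.sub_apply, LinearMap.id_apply, LinearMap.comp_apply,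
        map_sub, ← LinearMap.comp_apply (f := f) (g := s), hs, LinearMap.id_apply, sub_self])
  have hπι : π₀ ∘ₗ (LinearMap.ker f).subtype = LinearMap.id := by
    ext m
    simp [π₀, (LinearMap.mem_ker.1 m.2)]
  have hιπ : (LinearMap.ker f).subtype ∘ₗ π₀ = LinearMap.id - s ∘ₗ f := by
    ext m
    simp [π₀]
  constructor
  · intro t t' h
    have h' : (LinearMap.ker f).subtype.baseChange A' t =
        (LinearMap.ker f).subtype.baseChange A' t' := congrArg Subtype.val h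
    have := congrArg (π₀.baseChange A') h'
    rwa [← LinearMap.comp_apply, ← LinearMap.comp_apply, ← LinearMap.baseChange_comp, hπι,
      LinearMap.baseChange_id, LinearMap.id_apply, LinearMap.id_apply] at this
  · rintro ⟨t, ht⟩
    refine ⟨π₀.baseChange A' t, Subtype.ext ?_⟩
    rw [kerBaseChangeMap_coe, ← LinearMap.comp_apply, ← LinearMap.baseChange_comp, hιπ,
      LinearMap.baseChange_sub, LinearMap.sub_apply, LinearMap.baseChange_id,
      LinearMap.id_apply, LinearMap.baseChange_comp, LinearMap.comp_apply,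
      LinearMap.mem_ker.1 ht, map_zero, sub_zero]

/-- For a split surjection `f`: `A' ⊗ ker f ≃ ker (A' ⊗ f)`. -/
def kerBaseChangeEquiv (f : M →ₗ[A] N) (s : N →ₗ[A] M) (hs : f ∘ₗ s = LinearMap.id) :
    A' ⊗[A] (LinearMap.ker f) ≃ₗ[A'] LinearMap.ker (f.baseChange A') :=
  LinearEquiv.ofBijective (kerBaseChangeMap A' f) (kerBaseChangeMap_bijective A' f s hs)

theorem kerBaseChangeEquiv_tmul (f : M →ₗ[A] N) (s : N →ₗ[A] M) (hs : f ∘ₗ s = LinearMap.id)
    (a' : A') (m : LinearMap.ker f) :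
    (kerBaseChangeEquiv A' f s hs (a' ⊗ₜ[A] m) : A' ⊗[A] M) = a' ⊗ₜ[A] (m : M) := rfl

end KerSplit

/-! ### Base change of the twisted Čech differential -/

section Tcech

variable {k : Type u} [Field k] {B₀ B₁ B₀₁ : Type u} [CommRing B₀] [CommRing B₁] [CommRing B₀₁]
  [Algebra k B₀] [Algebra k B₁] [Algebra k B₀₁] [Algebra B₀ B₀₁] [Algebra B₁ B₀₁]
  [IsScalarTower k B₀ B₀₁] [IsScalarTower k B₁ B₀₁]
  {x : B₀} {y : B₁} {e : B₁ →ₐ[k] k}
  {A A' : Type u} [CommRing A] [Algebra k A] [CommRing A'] [Algebra k A']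

theorem tensorMapLeft_xElt (ψ : A →ₐ[k] A') (x : B₀) :
    tensorMapLeft k ψ B₀₁ (xElt k B₀₁ A x) = xElt k B₀₁ A' x := by
  rw [xElt, xElt, tensorMapLeft_tmul, map_one]

theorem tensorMapLeft_yElt (ψ : A →ₐ[k] A') (y : B₁) :
    tensorMapLeft k ψ B₁ (yElt k A y) = yElt k A' y := by
  rw [yElt, yElt, tensorMapLeft_tmul, map_one]

/-- Compatibility of the base-change maps with the twisted differentials. -/
theorem tcech_baseChangeMaps (ψ : A →ₐ[k] A') {G : CurveGD k B₀ B₁ B₀₁ A}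
    {G' : CurveGD k B₀ B₁ B₀₁ A'}
    (bc : GlueDatum.BaseChangeMaps (tensorMapLeft k ψ B₀) (tensorMapLeft k ψ B₁)
      (tensorMapLeft k ψ B₀₁) G G') (x : B₀) (n : ℕ) (p : G.N₀ × G.N₁) :
    bc.b₀₁ (tcech x n G p) = tcech x n G' (bc.b₀ p.1, bc.b₁ p.2) := by
  rw [tcech_apply, tcech_apply, map_sub, LinearMap.map_smulₛₗ, bc.comm₀, bc.comm₁, map_pow,
    tensorMapLeft_xElt]

/-- SH3 (a): base change maps sections to sections. -/
theorem mem_sec_of_baseChangeMaps (ψ : A →ₐ[k] A') {G : CurveGD k B₀ B₁ B₀₁ A}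
    {G' : CurveGD k B₀ B₁ B₀₁ A'}
    (bc : GlueDatum.BaseChangeMaps (tensorMapLeft k ψ B₀) (tensorMapLeft k ψ B₁)
      (tensorMapLeft k ψ B₀₁) G G') (x : B₀) (n : ℕ) {p : G.N₀ × G.N₁} (hp : p ∈ sec x n G) :
    (bc.b₀ p.1, bc.b₁ p.2) ∈ sec x n G' := by
  rw [LinearMap.mem_ker, ← tcech_baseChangeMaps ψ bc x n p, LinearMap.mem_ker.1 hp, map_zero]

/-- **AD4 for twists.** If `G'` is a base change of `G` along `ψ : A → A'`, the twisted Čech
differentials of `G'` are the base changes `A' ⊗[A] -` of those of `G` (with the same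
identifications for all twists `n`). -/
theorem exists_tcech_square (ψ : A →ₐ[k] A') {G : CurveGD k B₀ B₁ B₀₁ A}
    {G' : CurveGD k B₀ B₁ B₀₁ A'}
    (bc : GlueDatum.BaseChangeMaps (tensorMapLeft k ψ B₀) (tensorMapLeft k ψ B₁)
      (tensorMapLeft k ψ B₀₁) G G') (x : B₀) :
    letI : Algebra A A' := ψ.toRingHom.toAlgebra
    ∃ (E : A' ⊗[A] (G.N₀ × G.N₁) ≃ₗ[A'] (G'.N₀ × G'.N₁))
      (e : A' ⊗[A] G.N₀₁ ≃ₗ[A'] G'.N₀₁),
      (∀ (a' : A') (p : G.N₀ × G.N₁), E (a' ⊗ₜ[A] p) = a' • (bc.b₀ p.1, bc.b₁ p.2)) ∧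
      (∀ (a' : A') (n : G.N₀₁), e (a' ⊗ₜ[A] n) = a' • bc.b₀₁ n) ∧
      ∀ (n : ℕ) t, e ((tcech x n G).baseChange A' t) = tcech x n G' (E t) := by
  letI algAA' : Algebra A A' := ψ.toRingHom.toAlgebra
  obtain ⟨E, e, hE, he, -⟩ := exists_cech_square ψ bc
  refine ⟨E, e, hE, he, fun n t => ?_⟩
  induction t using TensorProduct.induction_on with
  | zero => rw [map_zero, map_zero, map_zero, map_zero]
  | add s t hs ht => rw [map_add, map_add, hs, ht, map_add, map_add]
  | tmul a' p =>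
    rw [LinearMap.baseChange_tmul, he, hE, tcech_baseChangeMaps ψ bc x n p, map_smul]


/-- SH3 (b): `P0` is stable under base change. -/
theorem P0_of_baseChangeMaps (ψ : A →ₐ[k] A') {G : CurveGD k B₀ B₁ B₀₁ A}
    {G' : CurveGD k B₀ B₁ B₀₁ A'}
    (bc : GlueDatum.BaseChangeMaps (tensorMapLeft k ψ B₀) (tensorMapLeft k ψ B₁)
      (tensorMapLeft k ψ B₀₁) G G') (x : B₀) (n : ℕ) (h0 : P0 x n G) : P0 x n G' := by
  letI algAA' : Algebra A A' := ψ.toRingHom.toAlgebra
  obtain ⟨E, e, -, -, h⟩ := exists_tcech_square ψ bc x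
  intro z'
  have hsurj : Function.Surjective ((tcech x n G).baseChange A') := by
    rw [LinearMap.baseChange_eq_ltensor]
    exact LinearMap.lTensor_surjective A' h0
  obtain ⟨t, ht⟩ := hsurj (e.symm z')
  exact ⟨E t, by rw [← h n t, ht, LinearEquiv.apply_symm_apply]⟩

theorem P0_of_isBC (ψ : A →ₐ[k] A') {G : CurveGD k B₀ B₁ B₀₁ A}
    {G' : CurveGD k B₀ B₁ B₀₁ A'} (h : CurveGD.IsBC ψ G G') (x : B₀) (n : ℕ)
    (h0 : P0 x n G) : P0 x n G' := by
  obtain ⟨bc⟩ := h
  exact P0_of_baseChangeMaps ψ bc x n h0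

/-- SH3 (c): under `P0`, the twisted differential is a split surjection and `sec` is a
finitely generated projective `A`-module (K1 through the adapter). -/
theorem sec_finite_projective (hC : IsCurveChart k B₀ B₁ B₀₁ x y e)
    (G : CurveGD k B₀ B₁ B₀₁ A) (n : ℕ) (h0 : P0 x n G) :
    (∃ s : G.N₀₁ →ₗ[A] G.N₀ × G.N₁, tcech x n G ∘ₗ s = LinearMap.id) ∧
      Module.Finite A (sec x n G) ∧ Module.Projective A (sec x n G) := by
  have hd := Fermat.Agent.S25.H190.tcech_eq_d hC n G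
  have h := Fermat.Agent.S25.H370.H0_finite_projective_of_surjective
    (Fermat.Agent.S25.H250.chartCechOps hC G) (Fermat.Agent.S25.H250.isFGProj_X0 hC G)
    (Fermat.Agent.S25.H250.isFGProj_Y1 hC G) (Fermat.Agent.S25.H250.r0_injective hC G)
    (Fermat.Agent.S25.H250.r1_injective hC G) n (by rw [← hd]; exact h0)
  rw [← hd, ← Fermat.Agent.S25.H190.sec_eq_H0 hC n G] at h
  exact h

/-- SH3 (d): under `P0`, `sec` commutes with base change. -/
theorem exists_sec_baseChange_equiv (hC : IsCurveChart k B₀ B₁ B₀₁ x y e) (ψ : A →ₐ[k] A')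
    {G : CurveGD k B₀ B₁ B₀₁ A} {G' : CurveGD k B₀ B₁ B₀₁ A'}
    (bc : GlueDatum.BaseChangeMaps (tensorMapLeft k ψ B₀) (tensorMapLeft k ψ B₁)
      (tensorMapLeft k ψ B₀₁) G G') (n : ℕ) (h0 : P0 x n G) :
    letI : Algebra A A' := ψ.toRingHom.toAlgebra
    ∃ ε : A' ⊗[A] (sec x n G) ≃ₗ[A'] (sec x n G'),
      ∀ (a' : A') (s : sec x n G), ((ε (a' ⊗ₜ[A] s) : sec x n G') : G'.N₀ × G'.N₁) =
        a' • (bc.b₀ (s : G.N₀ × G.N₁).1, bc.b₁ (s : G.N₀ × G.N₁).2) := by
  letI algAA' : Algebra A A' := ψ.toRingHom.toAlgebra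
  obtain ⟨E, e, hE, -, h⟩ := exists_tcech_square ψ bc x
  obtain ⟨⟨s, hs⟩, -, -⟩ := sec_finite_projective hC G n h0
  refine ⟨(kerBaseChangeEquiv A' (tcech x n G) s hs).trans
    (kerEquivOfSquare (R := A') (M := A' ⊗[A] (G.N₀ × G.N₁)) (N := A' ⊗[A] G.N₀₁)
      (M' := G'.N₀ × G'.N₁) (N' := G'.N₀₁) ((tcech x n G).baseChange A') (tcech x n G') E e
      (h n)), fun a' s => ?_⟩
  exact hE a' s


/-- SH3 (e): under `P0`, `sec G'` is the `A'`-span of the image of `sec G`. -/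
theorem sec_eq_span_of_baseChangeMaps (hC : IsCurveChart k B₀ B₁ B₀₁ x y e) (ψ : A →ₐ[k] A')
    {G : CurveGD k B₀ B₁ B₀₁ A} {G' : CurveGD k B₀ B₁ B₀₁ A'}
    (bc : GlueDatum.BaseChangeMaps (tensorMapLeft k ψ B₀) (tensorMapLeft k ψ B₁)
      (tensorMapLeft k ψ B₀₁) G G') (n : ℕ) (h0 : P0 x n G) :
    sec x n G' = Submodule.span A'
      (Set.range fun s : sec x n G =>
        ((bc.b₀ (s : G.N₀ × G.N₁).1, bc.b₁ (s : G.N₀ × G.N₁).2) : G'.N₀ × G'.N₁)) := by
  letI algAA' : Algebra A A' := ψ.toRingHom.toAlgebra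
  obtain ⟨ε, hε⟩ := exists_sec_baseChange_equiv hC ψ bc n h0
  apply le_antisymm
  · intro t ht
    obtain ⟨u, hu⟩ := ε.surjective ⟨t, ht⟩
    have key : ∀ u : A' ⊗[A] (sec x n G), ((ε u : sec x n G') : G'.N₀ × G'.N₁) ∈
        Submodule.span A' (Set.range fun s : sec x n G =>
          ((bc.b₀ (s : G.N₀ × G.N₁).1, bc.b₁ (s : G.N₀ × G.N₁).2) : G'.N₀ × G'.N₁)) := by
      intro u
      induction u using TensorProduct.induction_on with
      | zero => rw [map_zero]; exact Submodule.zero_mem _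
      | tmul a' s =>
        rw [hε]
        exact Submodule.smul_mem _ _ (Submodule.subset_span ⟨s, rfl⟩)
      | add u v hu hv =>
        rw [map_add]
        exact Submodule.add_mem _ hu hv
    have := key u
    rw [hu] at this
    exact this
  · rw [Submodule.span_le]
    rintro _ ⟨s, rfl⟩
    exact mem_sec_of_baseChangeMaps ψ bc x n s.2

/-- SH3 (f): under `P0`, the rank of `sec G'` at `p'` is the rank of `sec G` at `ψ⁻¹ p'`. -/
theorem rankAtStalk_sec_of_baseChangeMaps (hC : IsCurveChart k B₀ B₁ B₀₁ x y e)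
    (ψ : A →ₐ[k] A') {G : CurveGD k B₀ B₁ B₀₁ A} {G' : CurveGD k B₀ B₁ B₀₁ A'}
    (bc : GlueDatum.BaseChangeMaps (tensorMapLeft k ψ B₀) (tensorMapLeft k ψ B₁)
      (tensorMapLeft k ψ B₀₁) G G') (n : ℕ) (h0 : P0 x n G) (p' : PrimeSpectrum A') :
    Module.rankAtStalk (sec x n G') p' =
      Module.rankAtStalk (sec x n G) (PrimeSpectrum.comap ψ.toRingHom p') := by
  letI algAA' : Algebra A A' := ψ.toRingHom.toAlgebra
  obtain ⟨ε, -⟩ := exists_sec_baseChange_equiv hC ψ bc n h0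
  obtain ⟨-, hfin, hproj⟩ := sec_finite_projective hC G n h0
  rw [← Module.rankAtStalk_eq_of_equiv ε, Module.rankAtStalk_baseChange]
  rfl

end Tcech

end

end Fermat.Agent.S25.H610
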