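/-
S25, block ALGCHARTS (squad S25/S10), helper610: leaf ST0 `stage0_locus`, EXACT statement of
helper11's skeleton (`coord/S25-ALGCHARTS-skeleton.lean`): the locus `H¹(G(nE₀)) = 0` is the
complement of the support of the finitely generated `A`-module `H¹(G(nE₀))`, compatibly with
base change.  Also `P0_baseChange_iff` (the same with the explicit ideal `J`).
-/
import Fermat.Agent.S25.H610.SecBC
import Fermat.Agent.S25.H850.FibreVanish

set_option autoImplicit false
set_option linter.style.haveILetI false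
set_option linter.unusedSectionVars false

universe u

open scoped TensorProduct

namespace Fermat.Agent.S25.H610

open Fermat.Agent.S25 Fermat.Agent.S25.H11

variable {k : Type u} [Field k] [IsAlgClosed k]
  {B₀ B₁ B₀₁ : Type u} [CommRing B₀] [CommRing B₁] [CommRing B₀₁]
  [Algebra k B₀] [Algebra k B₁] [Algebra k B₀₁] [Algebra B₀ B₀₁] [Algebra B₁ B₀₁]
  [IsScalarTower k B₀ B₀₁] [IsScalarTower k B₁ B₀₁]
  {x : B₀} {y : B₁} {e : B₁ →ₐ[k] k}
  {A : Type u} [CommRing A] [Algebra k A]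

omit [IsAlgClosed k] in
/-- `P0` of a base change `G'` of `G` along `ψ`, in terms of the annihilator of `H¹(G(nE₀))`. -/
theorem P0_baseChange_iff (hC : IsCurveChart k B₀ B₁ B₀₁ x y e) (n : ℕ)
    (G : CurveGD k B₀ B₁ B₀₁ A) {A' : Type u} [CommRing A'] [Algebra k A'] (ψ : A →ₐ[k] A')
    (G' : CurveGD k B₀ B₁ B₀₁ A') (h : CurveGD.IsBC ψ G G') :
    P0 x n G' ↔
      (Module.annihilator A (G.N₀₁ ⧸ LinearMap.range (tcech x n G))).map ψ.toRingHom = ⊤ := by
  letI algAA' : Algebra A A' := ψ.toRingHom.toAlgebra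
  obtain ⟨bc⟩ := h
  obtain ⟨E, ε, -, -, hsq⟩ := exists_tcech_square ψ bc x
  have hd := Fermat.Agent.S25.H190.tcech_eq_d hC n G
  have key : ∀ (f : (G.N₀ × G.N₁) →ₗ[A] G.N₀₁),
      f = (Fermat.Agent.S25.H250.chartCechOps hC G).d n →
      (Function.Surjective (f.baseChange A') ↔
        (Module.annihilator A (G.N₀₁ ⧸ LinearMap.range f)).map (algebraMap A A') = ⊤) := by
    intro f hf
    subst hf
    exact Fermat.Agent.S25.H850.map_annihilator_H1_eq_top_iff
      (Fermat.Agent.S25.H250.chartCechOps hC G)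
      (Fermat.Agent.S25.H10.isFG_of_isFGProj (Fermat.Agent.S25.H250.isFGProj_X0 hC G)) n A'
  have key' : Function.Surjective ((tcech x n G).baseChange A') ↔
      (Module.annihilator A (G.N₀₁ ⧸ LinearMap.range (tcech x n G))).map ψ.toRingHom = ⊤ :=
    key (tcech x n G) hd
  rw [← key']
  constructor
  · intro h0 t
    obtain ⟨p, hp⟩ := h0 (ε t)
    refine ⟨E.symm p, ε.injective ?_⟩
    rw [hsq n, LinearEquiv.apply_symm_apply, hp]
  · intro hs z'
    obtain ⟨t, ht⟩ := hs (ε.symm z')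
    exact ⟨E t, by rw [← hsq n t, ht, LinearEquiv.apply_symm_apply]⟩

/-- **STAGE 0** (exact skeleton statement): the locus `H¹(G(nE₀)) = 0`. -/
theorem stage0_locus (hC : IsCurveChart k B₀ B₁ B₀₁ x y e) (n : ℕ)
    (G : CurveGD k B₀ B₁ B₀₁ A) :
    ∃ J : Ideal A, ∀ (A' : Type u) [CommRing A'] [Algebra k A'] (ψ : A →ₐ[k] A')
      (G' : CurveGD k B₀ B₁ B₀₁ A'), CurveGD.IsBC ψ G G' →
        (P0 x n G' ↔ J.map ψ.toRingHom = ⊤) :=
  ⟨Module.annihilator A (G.N₀₁ ⧸ LinearMap.range (tcech x n G)),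
    fun _ _ _ ψ G' h => P0_baseChange_iff hC n G ψ G' h⟩

end Fermat.Agent.S25.H610
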